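import Mathlib

namespace Fermat.Agent.S23.H548

open MvPolynomial

/-- A copy of `ℂ` used as the target of the lift, to avoid clashing algebra instances. -/
def CTarget : Type := ℂ

noncomputable instance instFieldCTarget : Field CTarget := inferInstanceAs (Field ℂ)
instance instIsAlgClosedCTarget : IsAlgClosed CTarget := inferInstanceAs (IsAlgClosed ℂ)

/-- The identity, as a ring isomorphism from the copy back to `ℂ`. -/
noncomputable def cTargetEquiv : CTarget ≃+* ℂ := RingEquiv.refl ℂ

/-- Extension of a "twisted structure map" on the polynomial ring of a transcendence basis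
to a ring endomorphism of `ℂ`. -/
theorem exists_ringHom_of_transcendenceBasis {A : Type} [Field A] [Algebra A ℂ]
    {ι : Type} (v : ι → ℂ) (hv : IsTranscendenceBasis A v)
    (g : MvPolynomial ι A →+* ℂ) (hg : Function.Injective g) :
    ∃ σ : ℂ →+* ℂ, ∀ p : MvPolynomial ι A, σ (aeval v p) = g p := by
  classical
  let R' := Algebra.adjoin A (Set.range v)
  let e : MvPolynomial ι A ≃ₐ[A] R' := hv.1.aevalEquiv
  let g' : R' →+* CTarget :=
    (cTargetEquiv.symm : ℂ →+* CTarget).comp (g.comp (e.symm : R' →+* MvPolynomial ι A))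
  have hg' : Function.Injective g' :=
    cTargetEquiv.symm.injective.comp (hg.comp e.symm.injective)
  let algM : Algebra R' CTarget := g'.toAlgebra
  have hfa : FaithfulSMul R' CTarget := (faithfulSMul_iff_algebraMap_injective R' CTarget).mpr hg'
  have halg : Algebra.IsAlgebraic R' ℂ := hv.isAlgebraic
  let L : ℂ →ₐ[R'] CTarget := IsAlgClosed.lift
  refine ⟨(cTargetEquiv : CTarget →+* ℂ).comp (L : ℂ →+* CTarget), fun p => ?_⟩
  have h1 : (aeval v p : ℂ) = algebraMap R' ℂ (e p) := rfl
  rw [h1, RingHom.comp_apply]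
  have h2 : L (algebraMap R' ℂ (e p)) = algebraMap R' CTarget (e p) := L.commutes (e p)
  have h3 : algebraMap R' CTarget (e p) = cTargetEquiv.symm (g (e.symm (e p))) := rfl
  rw [AlgHom.coe_toRingHom, h2, h3, AlgEquiv.symm_apply_apply]
  exact cTargetEquiv.apply_symm_apply _

/-- An algebraic irrational complex number is moved by some ring endomorphism of `ℂ`. -/
theorem exists_ringHom_ne_of_isAlgebraic (x : ℂ) (hx : x ∉ Set.range (algebraMap ℚ ℂ))
    (hxa : x ∈ algebraicClosure ℚ ℂ) : ∃ σ : ℂ →+* ℂ, σ x ≠ x := by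
  classical
  let A := algebraicClosure ℚ ℂ
  have : IsAlgClosure ℚ A := algebraicClosure.isAlgClosure ℚ ℂ
  have : IsGalois ℚ A := IsAlgClosure.isGalois ℚ A
  let xA : A := ⟨x, hxa⟩
  have hxA : xA ∉ Set.range (algebraMap ℚ A) := by
    rintro ⟨r, hr⟩
    exact hx ⟨r, by simpa [xA] using congrArg (algebraMap A ℂ) hr⟩
  rw [InfiniteGalois.mem_range_algebraMap_iff_fixed] at hxA
  push Not at hxA
  obtain ⟨f, hf⟩ := hxA
  obtain ⟨ι, v, hv⟩ := exists_isTranscendenceBasis' A ℂ
  let τ : A →+* A := (f : A →+* A)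
  let g : MvPolynomial ι A →+* ℂ := ((aeval v : MvPolynomial ι A →ₐ[A] ℂ) : _ →+* ℂ).comp (map τ)
  have hg : Function.Injective g := by
    have h1 : Function.Injective (map τ : MvPolynomial ι A →+* MvPolynomial ι A) :=
      map_injective τ τ.injective
    have h2 : Function.Injective (aeval v : MvPolynomial ι A →ₐ[A] ℂ) := hv.1
    intro p q hpq
    exact h1 (h2 hpq)
  obtain ⟨σ, hσ⟩ := exists_ringHom_of_transcendenceBasis v hv g hg
  refine ⟨σ, ?_⟩
  have h := hσ (C xA)
  simp only [g, RingHom.comp_apply, map_C, AlgHom.coe_toRingHom, aeval_C] at h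
  have h2 : (algebraMap A ℂ) xA = x := rfl
  rw [h2] at h
  rw [h]
  intro hc
  apply hf
  apply Subtype.ext
  exact hc

/-- A transcendental complex number is moved by some ring endomorphism of `ℂ`. -/
theorem exists_ringHom_ne_of_transcendental (x : ℂ) (hxa : x ∉ algebraicClosure ℚ ℂ) :
    ∃ σ : ℂ →+* ℂ, σ x ≠ x := by
  classical
  let A := algebraicClosure ℚ ℂ
  have hxt : Transcendental ℚ x := fun h => hxa (mem_algebraicClosure_iff.mpr h)
  have hxtA : Transcendental A x := hxt.algebraicClosure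
  have hind : AlgebraicIndepOn A id ({x} : Set ℂ) := by
    have : AlgebraicIndependent A (fun i : ({x} : Set ℂ) => (i : ℂ)) := by
      rw [algebraicIndependent_singleton_iff (⟨x, rfl⟩ : ({x} : Set ℂ))]
      exact hxtA
    exact this
  obtain ⟨t, hxt', hv⟩ := exists_isTranscendenceBasis_superset hind
  let i0 : t := ⟨x, hxt' rfl⟩
  let ψ : MvPolynomial t A →ₐ[A] MvPolynomial t A :=
    aeval (fun i => if i = i0 then X i0 + 1 else X i)
  let ψ' : MvPolynomial t A →ₐ[A] MvPolynomial t A :=
    aeval (fun i => if i = i0 then X i0 - 1 else X i)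
  have hψ : ψ'.comp ψ = AlgHom.id A _ := by
    apply MvPolynomial.algHom_ext
    intro i
    by_cases hi : i = i0
    · subst hi
      simp [ψ, ψ']
    · simp [ψ, ψ', hi]
  have hψinj : Function.Injective ψ := by
    intro p q hpq
    have := congrArg ψ' hpq
    have h1 : ∀ r, ψ' (ψ r) = r := fun r => by
      have := congrArg (fun F : MvPolynomial t A →ₐ[A] MvPolynomial t A => F r) hψ
      simpa using this
    rwa [h1, h1] at this
  let g : MvPolynomial t A →+* ℂ :=
    ((aeval (Subtype.val : t → ℂ) : MvPolynomial t A →ₐ[A] ℂ) : _ →+* ℂ).comp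
      (ψ : MvPolynomial t A →+* MvPolynomial t A)
  have hg : Function.Injective g := by
    have h2 : Function.Injective (aeval (Subtype.val : t → ℂ) : MvPolynomial t A →ₐ[A] ℂ) := hv.1
    intro p q hpq
    exact hψinj (h2 hpq)
  obtain ⟨σ, hσ⟩ := exists_ringHom_of_transcendenceBasis (Subtype.val : t → ℂ) hv g hg
  refine ⟨σ, ?_⟩
  have h := hσ (X i0)
  simp only [g, RingHom.comp_apply, AlgHom.coe_toRingHom, aeval_X, ψ, if_true, map_add,
    map_one] at h
  have h2 : (i0 : ℂ) = x := rfl
  rw [h2] at h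
  rw [h]
  simp

/-- **W1.** A complex number fixed by every ring endomorphism of `ℂ` is rational. -/
theorem mem_range_rat_of_forall_ringHom_fixed (x : ℂ) (h : ∀ σ : ℂ →+* ℂ, σ x = x) :
    x ∈ Set.range (algebraMap ℚ ℂ) := by
  by_contra hx
  by_cases hxa : x ∈ algebraicClosure ℚ ℂ
  · obtain ⟨σ, hσ⟩ := exists_ringHom_ne_of_isAlgebraic x hx hxa
    exact hσ (h σ)
  · obtain ⟨σ, hσ⟩ := exists_ringHom_ne_of_transcendental x hxa
    exact hσ (h σ)

end Fermat.Agent.S23.H548
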