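import Mathlib
import Fermat.Agent.S23.H548.FixedField

namespace Fermat.Agent.S23.H548

open Module

/-- **W2 (descent).** Let `V` be a finite-dimensional complex vector space with a jointly
injective family of linear "coefficient" functionals `a i`. If for every ring endomorphism `σ`
of `ℂ` and every `f : V` there is `f' : V` whose coefficients are the `σ`-images of those of `f`,
then `V` is spanned by the vectors all of whose coefficients are rational. -/
theorem span_rational_eq_top {ι : Type*} {V : Type*} [AddCommGroup V] [Module ℂ V]
    [FiniteDimensional ℂ V]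
    (a : ι → V →ₗ[ℂ] ℂ) (hinj : ∀ f : V, (∀ i, a i f = 0) → f = 0)
    (hσ : ∀ (σ : ℂ →+* ℂ) (f : V), ∃ f' : V, ∀ i, a i f' = σ (a i f)) :
    Submodule.span ℂ {f : V | ∀ i, a i f ∈ Set.range (algebraMap ℚ ℂ)} = ⊤ := by
  classical
  -- the functionals span the dual
  have hspan : (⊤ : Submodule ℂ (Dual ℂ V)) ≤ Submodule.span ℂ (Set.range a) := by
    have h1 : (Submodule.span ℂ (Set.range a)).dualCoannihilator = ⊥ := by
      rw [eq_bot_iff]
      intro f hf
      rw [Submodule.mem_dualCoannihilator] at hf
      rw [Submodule.mem_bot]
      exact hinj f fun i => hf (a i) (Submodule.subset_span ⟨i, rfl⟩)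
    have h2 := Subspace.dualCoannihilator_dualAnnihilator_eq
      (W := Submodule.span ℂ (Set.range a))
    rw [h1, Submodule.dualAnnihilator_bot] at h2
    rw [← h2]
  -- extract a basis of the dual consisting of coefficient functionals
  let B := Basis.ofSpan hspan
  have hB : ∀ j, ∃ i, a i = B j := fun j => Basis.ofSpan_subset hspan ⟨j, rfl⟩
  choose idx hidx using hB
  have : Finite (↑((linearIndepOn_empty ℂ id).extend (Set.empty_subset (Set.range a)))) :=
    Module.Finite.finite_basis B
  let _ := Fintype.ofFinite (↑((linearIndepOn_empty ℂ id).extend (Set.empty_subset (Set.range a))))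
  -- the dual basis, transported to `V`
  let F := fun j => (evalEquiv ℂ V).symm (B.dualBasis j)
  have hF : ∀ j j', B j' (F j) = if j' = j then 1 else 0 := by
    intro j j'
    have := B.dualBasis_apply_self j j'
    have h3 : (B.dualBasis j) (B j') = (evalEquiv ℂ V ((evalEquiv ℂ V).symm (B.dualBasis j))) (B j') := by
      rw [LinearEquiv.apply_symm_apply]
    rw [h3] at this
    simpa [F] using this
  -- elements of `V` are determined by the values of the `B j`
  have hext : ∀ f g : V, (∀ j, B j f = B j g) → f = g := by
    intro f g h
    have : f - g = 0 := by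
      apply hinj
      intro i
      have hi : a i ∈ Submodule.span ℂ (Set.range B) := by
        rw [B.span_eq]; exact Submodule.mem_top
      have hzero : ∀ φ ∈ Submodule.span ℂ (Set.range B), φ (f - g) = 0 := by
        intro φ hφ
        induction hφ using Submodule.span_induction with
        | mem x hx =>
          obtain ⟨j, rfl⟩ := hx
          simp [h j]
        | zero => simp
        | add x y _ _ hx hy => simp [hx, hy] at *
        | smul c x _ hx => simp [hx] at *
      exact hzero _ hi
    exact sub_eq_zero.mp this
  -- each `F j` has rational coefficients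
  have hrat : ∀ j, F j ∈ {f : V | ∀ i, a i f ∈ Set.range (algebraMap ℚ ℂ)} := by
    intro j i
    apply mem_range_rat_of_forall_ringHom_fixed
    intro σ
    obtain ⟨f', hf'⟩ := hσ σ (F j)
    have hfeq : f' = F j := by
      apply hext
      intro j'
      rw [← hidx j', hf', hidx j', hF]
      split_ifs <;> simp
    rw [← hf' i, hfeq]
  -- and the `F j` span
  rw [eq_top_iff]
  intro f _
  have hf : f = ∑ j, (B j f) • F j := by
    apply hext
    intro j'
    simp only [map_sum, map_smul, hF, smul_eq_mul]
    simp
  rw [hf]
  exact Submodule.sum_mem _ fun j _ => Submodule.smul_mem _ _ (Submodule.subset_span (hrat j))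

end Fermat.Agent.S23.H548
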