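import Mathlib
import Fermat.Agent.S23.H548.Descent

/-!
# S23 / T6 (captain skeleton `Cap/Descent.lean`): Galois descent for subspaces of `ℂ⟦q⟧`

`descent_powerSeries` is the captain's statement `Fermat.Agent.S23.Cap.descent` verbatim
(same binders, same conclusion), proved from `span_rational_eq_top` (W2).
-/

namespace Fermat.Agent.S23.H548

open Module

/-- A subspace of `ℂ⟦q⟧` whose elements are determined by their first `B + 1` coefficients is
finite-dimensional. -/
theorem finiteDimensional_of_coeff_bound (W : Submodule ℂ (PowerSeries ℂ)) (B : ℕ)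
    (hB : ∀ F ∈ W, (∀ n ≤ B, PowerSeries.coeff n F = 0) → F = 0) :
    FiniteDimensional ℂ W := by
  let φ : W →ₗ[ℂ] (Fin (B + 1) → ℂ) :=
    LinearMap.pi fun i => (PowerSeries.coeff (R := ℂ) (i : ℕ)) ∘ₗ W.subtype
  have hφ : Function.Injective φ := by
    rw [← LinearMap.ker_eq_bot, LinearMap.ker_eq_bot']
    intro F hF
    have h0 : (F : PowerSeries ℂ) = 0 := by
      apply hB _ F.2
      intro n hn
      have := congrFun hF ⟨n, Nat.lt_succ_of_le hn⟩
      simpa [φ] using this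
    exact Subtype.ext h0
  exact FiniteDimensional.of_injective φ hφ

/-- **T6 (captain's `Cap.descent`, verbatim statement).** -/
theorem descent_powerSeries (W : Submodule ℂ (PowerSeries ℂ)) (B : ℕ)
    (hB : ∀ F ∈ W, (∀ n ≤ B, PowerSeries.coeff n F = 0) → F = 0)
    (hσ : ∀ σ : ℂ →+* ℂ, ∀ F ∈ W, F.map σ ∈ W) :
    W ≤ Submodule.span ℂ
      {F | F ∈ W ∧ ∀ n : ℕ, ∃ r : ℚ, PowerSeries.coeff n F = (r : ℂ)} := by
  have : FiniteDimensional ℂ W := finiteDimensional_of_coeff_bound W B hB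
  let a : ℕ → W →ₗ[ℂ] ℂ := fun n => (PowerSeries.coeff (R := ℂ) n) ∘ₗ W.subtype
  have hinj : ∀ f : W, (∀ i, a i f = 0) → f = 0 := by
    intro f hf
    apply Subtype.ext
    ext n
    simpa [a] using hf n
  have hσ' : ∀ (σ : ℂ →+* ℂ) (f : W), ∃ f' : W, ∀ i, a i f' = σ (a i f) := by
    intro σ f
    refine ⟨⟨(f : PowerSeries ℂ).map σ, hσ σ _ f.2⟩, fun i => ?_⟩
    simp [a]
  have key := span_rational_eq_top a hinj hσ'
  intro F hF
  have hmem : (⟨F, hF⟩ : W) ∈
      Submodule.span ℂ {f : W | ∀ i, a i f ∈ Set.range (algebraMap ℚ ℂ)} := by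
    rw [key]; exact Submodule.mem_top
  have hmap := Submodule.mem_map_of_mem (f := W.subtype) hmem
  rw [Submodule.map_span] at hmap
  refine Submodule.span_mono ?_ hmap
  rintro _ ⟨f, hf, rfl⟩
  refine ⟨f.2, fun n => ?_⟩
  obtain ⟨r, hr⟩ := hf n
  exact ⟨r, by simpa [a] using hr.symm⟩

end Fermat.Agent.S23.H548
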